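/-
Fermat/Agent/AV/GenFin/EtaleAlg.lean  (helper81) -- CELL AV, brick GENFIN (A1), algebra.

If `φ : K[X₁, …, X_d] → S` is étale, `S` a domain with fraction field `L`, then `L` is a finite
separable extension of `K(t₁, …, t_d)`, `t i` the image of `X i`.
-/
import Mathlib

set_option autoImplicit false
set_option linter.style.haveILetI false

namespace Fermat.Agent.AV.GenFin

open MvPolynomial

/-- **Étale coordinates are a separating transcendence "spanning set".**  If
`φ : K[X₁, …, X_d] → S` is étale and `L` is the fraction field of `S`, then `L` is finite and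
separable over the subfield generated by the images of the coordinates. -/
theorem finite_isSeparable_adjoin_of_etale {K S L : Type*} [Field K] [CommRing S] [Algebra K S]
    [Field L] [Algebra S L] [IsFractionRing S L] [Algebra K L] [IsScalarTower K S L] {d : ℕ}
    (φ : MvPolynomial (Fin d) K →ₐ[K] S) (hφ : φ.toRingHom.Etale) :
    Module.Finite
        (IntermediateField.adjoin K (Set.range fun i ↦ algebraMap S L (φ (X i)))) L ∧
      Algebra.IsSeparable
        (IntermediateField.adjoin K (Set.range fun i ↦ algebraMap S L (φ (X i)))) L := by
  set t : Fin d → L := fun i ↦ algebraMap S L (φ (X i)) with ht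
  set E := IntermediateField.adjoin K (Set.range t) with hE
  algebraize [φ.toRingHom]
  have hmem : ∀ p : MvPolynomial (Fin d) K, algebraMap S L (φ p) ∈ E := by
    intro p
    have h1 : (IsScalarTower.toAlgHom K S L).comp φ = aeval t :=
      MvPolynomial.algHom_ext fun i ↦ by simp [ht]
    have h2 : algebraMap S L (φ p) = aeval t p := AlgHom.congr_fun h1 p
    rw [h2]
    apply IntermediateField.algebra_adjoin_le_adjoin K (Set.range t)
    rw [Algebra.adjoin_range_eq_range_aeval]
    exact ⟨p, rfl⟩
  let ψ : MvPolynomial (Fin d) K →+* E :=
    ((algebraMap S L).comp φ.toRingHom).codRestrict E hmem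
  letI : Algebra (MvPolynomial (Fin d) K) E := ψ.toAlgebra
  letI : Algebra (MvPolynomial (Fin d) K) L :=
    ((algebraMap S L).comp (algebraMap (MvPolynomial (Fin d) K) S)).toAlgebra
  have : IsScalarTower (MvPolynomial (Fin d) K) S L := .of_algebraMap_eq' rfl
  have : IsScalarTower (MvPolynomial (Fin d) K) E L := .of_algebraMap_eq' rfl
  have : Algebra.FormallyUnramified S L :=
    Algebra.FormallyUnramified.of_isLocalization (nonZeroDivisors S)
  have : Algebra.FormallyUnramified (MvPolynomial (Fin d) K) L :=
    Algebra.FormallyUnramified.comp _ S L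
  have : Algebra.FormallyUnramified E L :=
    Algebra.FormallyUnramified.of_restrictScalars (MvPolynomial (Fin d) K) E L
  have : Algebra.EssFiniteType S L := Algebra.EssFiniteType.of_isLocalization L (nonZeroDivisors S)
  have : Algebra.EssFiniteType (MvPolynomial (Fin d) K) L := Algebra.EssFiniteType.comp _ S L
  have : Algebra.EssFiniteType E L := Algebra.EssFiniteType.of_comp (MvPolynomial (Fin d) K) E L
  exact ⟨Algebra.FormallyUnramified.finite_of_free E L, Algebra.FormallyUnramified.isSeparable E L⟩

end Fermat.Agent.AV.GenFin
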