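/-
Fermat/Agent/AV/GenFin/Etale.lean  (helper81) -- CELL AV, brick GENFIN (A1).

UPPER BOUND for the transcendence degree of the function field of a smooth variety: an integral
scheme `X`, smooth of relative dimension `d` over a field `K`, has `d` rational functions
`t₁, …, t_d` such that `K(X)` is a FINITE SEPARABLE extension of `K(t₁, …, t_d)`.  Moreover `K(X)`
is an essentially finitely generated `K`-algebra.

All statements are for an arbitrary instance `[Algebra K X.functionField]` together with the
compatibility `hcompat : algebraMap K X.functionField = Var81.ffMap x`; the versions with suffix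
`_ff` are for the canonical structure
`((X.germToFunctionField ⊤).hom.comp (Jac.sectionsRingHom x ⊤)).toAlgebra`
(which is, by reducible unfolding, `Box14.ffAlgebra x` and `Upb43.ffAlgebra x`).
-/
import Mathlib
import Fermat.Agent.AV.Var81.Coords
import Fermat.Agent.AV.Var81.FunctionField
import Fermat.Agent.AV.GenFin.EtaleAlg

set_option autoImplicit false
set_option linter.style.haveILetI false

universe u

open CategoryTheory AlgebraicGeometry

namespace Fermat.Agent.AV.GenFin

open Fermat.Agent.AV.Var81

variable {K : Type u} [Field K] {X : Scheme.{u}} (x : X ⟶ Spec (.of K))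

/-- **GENFIN (A1), strong form.**  `K(X)` is finite and separable over `K(t₁, …, t_d)` for suitable
rational functions `t i` (étale coordinates near the generic point). -/
theorem exists_finite_isSeparable_adjoin (d : ℕ) [SmoothOfRelativeDimension d x] [IsIntegral X]
    [Algebra K X.functionField] (hcompat : algebraMap K X.functionField = ffMap x) :
    ∃ t : Fin d → X.functionField,
      Module.Finite (IntermediateField.adjoin K (Set.range t)) X.functionField ∧
      Algebra.IsSeparable (IntermediateField.adjoin K (Set.range t)) X.functionField := by
  obtain ⟨V, hV, hxV, -, φ, hφ⟩ := exists_etale_coordinates x d (genericPoint X)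
  haveI : Nonempty V := ⟨⟨genericPoint X, hxV⟩⟩
  letI : Algebra K Γ(X, V) := (sectionsMap x V).toAlgebra
  haveI : IsScalarTower K Γ(X, V) X.functionField := isScalarTower_sections' x hcompat V
  haveI : IsFractionRing Γ(X, V) X.functionField :=
    functionField_isFractionRing_of_isAffineOpen X V hV
  exact ⟨_, finite_isSeparable_adjoin_of_etale (L := X.functionField) φ hφ⟩

/-- **GENFIN (A1).**  `K(X)` is algebraic over `K(t₁, …, t_d)` for suitable rational functions. -/
theorem exists_isAlgebraic_adjoin (d : ℕ) [SmoothOfRelativeDimension d x] [IsIntegral X]
    [Algebra K X.functionField] (hcompat : algebraMap K X.functionField = ffMap x) :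
    ∃ t : Fin d → X.functionField,
      Algebra.IsAlgebraic (IntermediateField.adjoin K (Set.range t)) X.functionField := by
  obtain ⟨t, _, _⟩ := exists_finite_isSeparable_adjoin x d hcompat
  exact ⟨t, inferInstance⟩

/-- The function field of a scheme which is integral and locally of finite type over `K` is an
essentially finitely generated `K`-algebra. -/
theorem essFiniteType_functionField [LocallyOfFiniteType x] [IsIntegral X]
    [Algebra K X.functionField] (hcompat : algebraMap K X.functionField = ffMap x) :
    Algebra.EssFiniteType K X.functionField := by
  obtain ⟨_, ⟨V, hV, rfl⟩, hxV, -⟩ :=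
    X.isBasis_affineOpens.exists_subset_of_mem_open (Set.mem_univ (genericPoint X)) isOpen_univ
  haveI : Nonempty V := ⟨⟨genericPoint X, hxV⟩⟩
  letI : Algebra K Γ(X, V) := (sectionsMap x V).toAlgebra
  haveI : IsScalarTower K Γ(X, V) X.functionField := isScalarTower_sections' x hcompat V
  haveI : IsFractionRing Γ(X, V) X.functionField :=
    functionField_isFractionRing_of_isAffineOpen X V hV
  have hft : (sectionsMap x V).FiniteType := by
    refine RingHom.FiniteType.comp ?_ ?_
    · exact LocallyOfFiniteType.finiteType_appLE x (isAffineOpen_top _) hV _
    · exact RingHom.FiniteType.of_surjective _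
        (ConcreteCategory.bijective_of_isIso (Scheme.ΓSpecIso (.of K)).inv).2
  haveI : Algebra.FiniteType K Γ(X, V) := hft
  haveI : Algebra.EssFiniteType Γ(X, V) X.functionField :=
    Algebra.EssFiniteType.of_isLocalization _ (nonZeroDivisors Γ(X, V))
  exact Algebra.EssFiniteType.comp K Γ(X, V) X.functionField

section Canonical

variable [IsIntegral X]

/-- The canonical `K`-structure on the function field, literally the unfolding of
`Box14.ffAlgebra x` and of `Upb43.ffAlgebra x`. -/
@[reducible] noncomputable def ffAlg : Algebra K X.functionField :=
  haveI : Nonempty (⊤ : X.Opens) := nonempty_top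
  ((X.germToFunctionField ⊤).hom.comp (Fermat.Agent.Jac.sectionsRingHom x ⊤)).toAlgebra

theorem algebraMap_ffAlg :
    letI := ffAlg x
    algebraMap K X.functionField = ffMap x := by
  haveI : Nonempty (⊤ : X.Opens) := nonempty_top
  exact (ffMap_eq_sectionsRingHom x ⊤).symm

theorem exists_finite_isSeparable_adjoin_ff (d : ℕ) [SmoothOfRelativeDimension d x] :
    letI := ffAlg x
    ∃ t : Fin d → X.functionField,
      Module.Finite (IntermediateField.adjoin K (Set.range t)) X.functionField ∧
      Algebra.IsSeparable (IntermediateField.adjoin K (Set.range t)) X.functionField :=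
  letI := ffAlg x
  exists_finite_isSeparable_adjoin x d (algebraMap_ffAlg x)

theorem exists_isAlgebraic_adjoin_ff (d : ℕ) [SmoothOfRelativeDimension d x] :
    letI := ffAlg x
    ∃ t : Fin d → X.functionField,
      Algebra.IsAlgebraic (IntermediateField.adjoin K (Set.range t)) X.functionField :=
  letI := ffAlg x
  exists_isAlgebraic_adjoin x d (algebraMap_ffAlg x)

theorem essFiniteType_functionField_ff [LocallyOfFiniteType x] :
    letI := ffAlg x
    Algebra.EssFiniteType K X.functionField :=
  letI := ffAlg x
  essFiniteType_functionField x (algebraMap_ffAlg x)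

end Canonical

end Fermat.Agent.AV.GenFin
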