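/-
Fermat/Agent/AV/GenFin/Field.lean  (helper43)

Programme AV (S26/S27), brick GENFIN, pure field theory: a tower `K ⊆ E ⊆ F` of fields where `E`
contains `d` algebraically independent elements over `K` and `F` is finite over a subfield
generated over `K` by `d` elements is a finite extension `F / E`.
-/
import Mathlib

set_option autoImplicit false

universe u

open Cardinal Algebra

namespace Fermat.Agent.AV.GenFin

variable {K : Type*} {E F : Type u} [Field K] [Field E] [Field F]
  [Algebra K E] [Algebra E F] [Algebra K F] [IsScalarTower K E F]

open scoped IntermediateField.algebraAdjoinAdjoin in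
/-- `F` finite over `K(t)` is algebraic over `K[t]`. -/
theorem isAlgebraic_adjoin_of_finite {d : ℕ} (t : Fin d → F)
    [FiniteDimensional (IntermediateField.adjoin K (Set.range t)) F] :
    Algebra.IsAlgebraic (Algebra.adjoin K (Set.range t)) F :=
  Algebra.IsAlgebraic.trans (Algebra.adjoin K (Set.range t))
    (IntermediateField.adjoin K (Set.range t)) F

/-- Transcendence degree count: `F / E` is algebraic. -/
theorem isAlgebraic_of_trdeg {d : ℕ} (a : Fin d → E) (ha : AlgebraicIndependent K a)
    (t : Fin d → F) [FiniteDimensional (IntermediateField.adjoin K (Set.range t)) F] :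
    Algebra.IsAlgebraic E F := by
  have halg := isAlgebraic_adjoin_of_finite (K := K) t
  have h1 : trdeg K F ≤ (d : Cardinal.{u}) := by
    refine (Algebra.IsAlgebraic.trdeg_le_cardinalMk K (Set.range t)).trans ?_
    have := Cardinal.mk_range_le_lift (f := t)
    simpa using this
  have h2 : (d : Cardinal.{u}) ≤ trdeg K E := by
    have := ha.lift_cardinalMk_le_trdeg
    simpa using this
  have h3 : trdeg K E + trdeg E F = trdeg K F := trdeg_add_eq K E (A := F)
  rw [← trdeg_eq_zero_iff]
  have h4 : trdeg K E + trdeg E F ≤ d := h3 ▸ h1
  have hE : trdeg K E < ℵ₀ := (le_self_add.trans h4).trans_lt (natCast_lt_aleph0 (n := d))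
  have hF : trdeg E F < ℵ₀ := (le_add_self.trans h4).trans_lt (natCast_lt_aleph0 (n := d))
  obtain ⟨m, hm⟩ := Cardinal.lt_aleph0.1 hE
  obtain ⟨n, hn⟩ := Cardinal.lt_aleph0.1 hF
  rw [hm, hn] at h4
  rw [hm] at h2
  rw [hn]
  have h4' : m + n ≤ d := by exact_mod_cast h4
  have h2' : d ≤ m := by exact_mod_cast h2
  have : n = 0 := by omega
  simp [this]

/-- **GENFIN, field theory.**  `F / E` is finite. -/
theorem finiteDimensional_of_trdeg {d : ℕ} (a : Fin d → E) (ha : AlgebraicIndependent K a)
    (t : Fin d → F) [hfin : FiniteDimensional (IntermediateField.adjoin K (Set.range t)) F] :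
    FiniteDimensional E F := by
  classical
  have halg : Algebra.IsAlgebraic E F := isAlgebraic_of_trdeg a ha t
  set L := IntermediateField.adjoin K (Set.range t) with hL
  obtain ⟨s, hs⟩ := hfin.fg_top
  -- the generating set
  let S : Set F := Set.range t ∪ (s : Set F)
  have hSfin : Finite S := (Set.finite_range t).union s.finite_toSet |>.to_subtype
  have hint : ∀ x ∈ S, IsIntegral E x := fun x _ => (halg.isAlgebraic x).isIntegral
  have hfd : FiniteDimensional E (IntermediateField.adjoin E S) :=
    IntermediateField.finiteDimensional_adjoin hint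
  have htop : IntermediateField.adjoin E S = ⊤ := by
    rw [_root_.eq_top_iff]
    intro z hz0
    clear hz0
    -- `L ⊆ E(S)`
    have hLM : ∀ l : L, (l : F) ∈ IntermediateField.adjoin E S := by
      intro l
      have : L ≤ (IntermediateField.adjoin E S).restrictScalars K := by
        rw [hL, IntermediateField.adjoin_le_iff]
        intro x hx
        exact IntermediateField.subset_adjoin E S (Or.inl hx)
      exact this l.2
    have hz : z ∈ Submodule.span L (s : Set F) := hs ▸ Submodule.mem_top
    induction hz using Submodule.span_induction with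
    | mem x hx => exact IntermediateField.subset_adjoin E S (Or.inr hx)
    | zero => exact zero_mem _
    | add x y _ _ hx hy => exact add_mem hx hy
    | smul l x _ hx =>
      rw [IntermediateField.smul_def, smul_eq_mul]
      exact mul_mem (hLM l) hx
  rw [htop] at hfd
  exact Module.Finite.equiv (IntermediateField.topEquiv (F := E) (E := F)).toLinearEquiv

end Fermat.Agent.AV.GenFin
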