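/-
Programme AV (S26/S27), brick GENFIN, abstract field theory for part (A3) (helper31).
Mathlib only.

`K ⊆ L ⊆ M` fields.  If `M` is algebraic over a `K`-subalgebra generated by `d` elements
(upper bound `trdeg_K M ≤ d`, input (A1) for `X`), `L` contains `d` elements algebraically
independent over `K` (lower bound `trdeg_K L ≥ d`, `Var81` for `Y`), then `M` is algebraic over
`L`; if moreover `M` is a finitely generated field extension of `K` (`Algebra.EssFiniteType K M`,
e.g. the fraction field of a `K`-algebra of finite type), then `M` is finite over `L`, so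
`Module.finrank L M ≠ 0`.
-/
import Mathlib

set_option autoImplicit false

universe u

open Cardinal

namespace Fermat.Agent.AV.GenFin

variable {K L M : Type u} [Field K] [Field L] [Field M] [Algebra K L] [Algebra K M] [Algebra L M]
  [IsScalarTower K L M]

/-- `trdeg_K M ≤ d` and `trdeg_K L ≥ d` (finite `d`) force `M` to be algebraic over `L`. -/
theorem isAlgebraic_of_trdeg_le_of_le (d : ℕ) (hM : Algebra.trdeg K M ≤ d)
    (hL : (d : Cardinal.{u}) ≤ Algebra.trdeg K L) : Algebra.IsAlgebraic L M := by
  rw [← trdeg_eq_zero_iff]
  have hadd : Algebra.trdeg K L + Algebra.trdeg L M = Algebra.trdeg K M :=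
    trdeg_add_eq K L
  have h1 : (d : Cardinal.{u}) + Algebra.trdeg L M ≤ (d : Cardinal.{u}) + 0 := by
    rw [add_zero]
    calc (d : Cardinal.{u}) + Algebra.trdeg L M
        ≤ Algebra.trdeg K L + Algebra.trdeg L M := by gcongr
      _ = Algebra.trdeg K M := hadd
      _ ≤ d := hM
  have h2 : (d : Cardinal.{u}) + 0 ≤ (d : Cardinal.{u}) + Algebra.trdeg L M :=
    by gcongr; exact zero_le
  exact Cardinal.eq_of_add_eq_add_left (le_antisymm h1 h2) (Cardinal.natCast_lt_aleph0)

/-- **Algebraicity.** `M` algebraic over `K[t₁, …, t_d]`, and `a₁, …, a_d ∈ L` algebraically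
independent over `K`: then `M` is algebraic over `L`. -/
theorem isAlgebraic_of_adjoin_of_algebraicIndependent (d : ℕ) (t : Fin d → M)
    [Algebra.IsAlgebraic (Algebra.adjoin K (Set.range t)) M]
    (a : Fin d → L) (ha : AlgebraicIndependent K a) : Algebra.IsAlgebraic L M := by
  refine isAlgebraic_of_trdeg_le_of_le (K := K) d ?_ ?_
  · calc Algebra.trdeg K M ≤ #(Set.range t) := Algebra.IsAlgebraic.trdeg_le_cardinalMk K (Set.range t)
      _ ≤ Cardinal.lift.{u} #(Fin d) := by
          have h := Cardinal.mk_range_le_lift (f := t)
          simpa using h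
      _ = d := by simp
  · have h := ha.lift_cardinalMk_le_trdeg
    simpa using h

/-- **Finiteness.** If moreover `M` is a finitely generated field extension of `K`, then `M` is
finite over `L`. -/
theorem finite_of_adjoin_of_algebraicIndependent [Algebra.EssFiniteType K M] (d : ℕ)
    (t : Fin d → M) [Algebra.IsAlgebraic (Algebra.adjoin K (Set.range t)) M]
    (a : Fin d → L) (ha : AlgebraicIndependent K a) : Module.Finite L M := by
  have halg : Algebra.IsAlgebraic L M := isAlgebraic_of_adjoin_of_algebraicIndependent d t a ha
  have : Algebra.EssFiniteType L M := Algebra.EssFiniteType.of_comp K L M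
  obtain ⟨s, hs⟩ := IntermediateField.fg_top L M
  have hfin : FiniteDimensional L (IntermediateField.adjoin L (s : Set M)) :=
    IntermediateField.finiteDimensional_adjoin
      fun x _ => (Algebra.IsAlgebraic.isAlgebraic x).isIntegral
  rw [hs] at hfin
  exact Module.Finite.equiv (IntermediateField.topEquiv (F := L) (E := M)).toLinearEquiv

/-- **Degree.** In the same situation `[M : L] ≠ 0`. -/
theorem finrank_ne_zero_of_adjoin_of_algebraicIndependent [Algebra.EssFiniteType K M] (d : ℕ)
    (t : Fin d → M) [Algebra.IsAlgebraic (Algebra.adjoin K (Set.range t)) M]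
    (a : Fin d → L) (ha : AlgebraicIndependent K a) : Module.finrank L M ≠ 0 := by
  have := finite_of_adjoin_of_algebraicIndependent (K := K) d t a ha
  exact (Module.finrank_pos (R := L) (M := M)).ne'

/-! ### The same with `IntermediateField.adjoin` -/

open scoped IntermediateField.algebraAdjoinAdjoin in
/-- Algebraic over the field `K(S)` implies algebraic over the ring `K[S]`. -/
theorem isAlgebraic_algebraAdjoin_of_isAlgebraic_adjoin (S : Set M)
    [Algebra.IsAlgebraic (IntermediateField.adjoin K S) M] :
    Algebra.IsAlgebraic (Algebra.adjoin K S) M :=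
  Algebra.IsAlgebraic.trans (Algebra.adjoin K S) (IntermediateField.adjoin K S) M

/-- `isAlgebraic_of_adjoin_of_algebraicIndependent` with `M` algebraic over the FIELD
`K(t₁, …, t_d)`. -/
theorem isAlgebraic_of_fieldAdjoin_of_algebraicIndependent (d : ℕ) (t : Fin d → M)
    [Algebra.IsAlgebraic (IntermediateField.adjoin K (Set.range t)) M]
    (a : Fin d → L) (ha : AlgebraicIndependent K a) : Algebra.IsAlgebraic L M :=
  have := isAlgebraic_algebraAdjoin_of_isAlgebraic_adjoin (K := K) (Set.range t)
  isAlgebraic_of_adjoin_of_algebraicIndependent d t a ha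

/-- `finite_of_adjoin_of_algebraicIndependent` with `M` algebraic over the FIELD
`K(t₁, …, t_d)`. -/
theorem finite_of_fieldAdjoin_of_algebraicIndependent [Algebra.EssFiniteType K M] (d : ℕ)
    (t : Fin d → M) [Algebra.IsAlgebraic (IntermediateField.adjoin K (Set.range t)) M]
    (a : Fin d → L) (ha : AlgebraicIndependent K a) : Module.Finite L M :=
  have := isAlgebraic_algebraAdjoin_of_isAlgebraic_adjoin (K := K) (Set.range t)
  finite_of_adjoin_of_algebraicIndependent d t a ha

/-- `finrank_ne_zero_of_adjoin_of_algebraicIndependent` with `M` algebraic over the FIELD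
`K(t₁, …, t_d)`. -/
theorem finrank_ne_zero_of_fieldAdjoin_of_algebraicIndependent [Algebra.EssFiniteType K M]
    (d : ℕ) (t : Fin d → M) [Algebra.IsAlgebraic (IntermediateField.adjoin K (Set.range t)) M]
    (a : Fin d → L) (ha : AlgebraicIndependent K a) : Module.finrank L M ≠ 0 :=
  have := isAlgebraic_algebraAdjoin_of_isAlgebraic_adjoin (K := K) (Set.range t)
  finrank_ne_zero_of_adjoin_of_algebraicIndependent d t a ha

/-- The fraction field of a `K`-algebra of finite type is a finitely generated field extension of
`K` (the `EssFiniteType` input of the finiteness statements). -/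
theorem essFiniteType_of_isFractionRing (S : Type u) [CommRing S] [Algebra K S]
    [Algebra.FiniteType K S] [Algebra S M] [IsScalarTower K S M] [IsFractionRing S M] :
    Algebra.EssFiniteType K M :=
  have : Algebra.EssFiniteType S M := Algebra.EssFiniteType.of_isLocalization M (nonZeroDivisors S)
  Algebra.EssFiniteType.comp K S M

end Fermat.Agent.AV.GenFin
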