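/-
Fermat/Agent/AV/GenFin/Main.lean  (helper43)

Programme AV (S26/S27), brick GENFIN, part (A3): a dominant morphism `π : X ⟶ Y` over `K` of
integral `K`-schemes, `Y` smooth of relative dimension `d` and `K(X)` finite over a subfield
generated by `d` elements (part (A1), true for `X` smooth of relative dimension `d`), has finite
function field extension: `NormD43.degree π ≠ 0`.
-/
import Mathlib
import Fermat.Agent.AV.GenFin.Field
import Fermat.Agent.AV.NormD43.Main
import Fermat.Agent.AV.Upb43.BoxGeom
import Fermat.Agent.AV.Var81.Scheme

set_option autoImplicit false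

universe u

open CategoryTheory CategoryTheory.Limits AlgebraicGeometry

namespace Fermat.Agent.AV.GenFin

open Fermat.Agent.AV Fermat.Agent.AV.Upb43 Fermat.Agent.AV.PicDiv86

variable {K : Type u} [Field K] {X Y : Scheme.{u}}

/-- The two definitions of the map of function fields agree. -/
theorem functionFieldMap_eq_normD [IsIntegral X] [IsIntegral Y] (π : X ⟶ Y) [IsDominant π] :
    PicDiv86.functionFieldMap π = (NormD43.functionFieldMap π).hom := by
  apply functionFieldMap_ext
  intro U hU s
  exact NormD43.functionFieldMap_germ π U ⟨_, (hU.some).2⟩ s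

/-- **GENFIN (A3)**, with the output of (A1) as a hypothesis. -/
theorem degree_ne_zero_of_finite (x : X ⟶ Spec (CommRingCat.of K))
    (y : Y ⟶ Spec (CommRingCat.of K)) (π : X ⟶ Y) (hπ : π ≫ y = x) (d : ℕ)
    [SmoothOfRelativeDimension d y] [IsIntegral X] [IsIntegral Y] [IsDominant π]
    (hA1 : letI := ffAlgebra x
      ∃ t : Fin d → X.functionField,
        FiniteDimensional (IntermediateField.adjoin K (Set.range t)) X.functionField) :
    NormD43.degree π ≠ 0 := by
  letI algKF : Algebra K X.functionField := ffAlgebra x
  letI algKE : Algebra K Y.functionField := ffAlgebra y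
  letI algEF : Algebra Y.functionField X.functionField :=
    (NormD43.functionFieldMap π).hom.toAlgebra
  have tower : IsScalarTower K Y.functionField X.functionField :=
    IsScalarTower.of_algebraMap_eq fun a => by
      change kToFF x a = (NormD43.functionFieldMap π).hom (kToFF y a)
      rw [← functionFieldMap_eq_normD, functionFieldMap_kToFF, hπ]
  -- algebraically independent functions on `Y`
  obtain ⟨V, hV, hgenV⟩ : ∃ V : Y.Opens, IsAffineOpen V ∧ genericPoint Y ∈ V := by
    obtain ⟨_, ⟨W, hW, rfl⟩, hxW, -⟩ :=
      Y.isBasis_affineOpens.exists_subset_of_mem_open (Set.mem_univ (genericPoint Y)) isOpen_univ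
    exact ⟨W, hW, hxW⟩
  haveI : Nonempty V := ⟨⟨_, hgenV⟩⟩
  letI algV : Algebra K Γ(Y, V) := (Var81.sectionsMap y V).toAlgebra
  obtain ⟨a₀, ha₀⟩ := Var81.exists_algebraicIndependent_sections y d hV
  have towerV : IsScalarTower K Γ(Y, V) Y.functionField :=
    IsScalarTower.of_algebraMap_eq fun r => by
      change kToFF y r = Y.germToFunctionField V (Var81.sectionsMap y V r)
      rw [kToFF_eq y V]
      rfl
  have ha : AlgebraicIndependent K
      (fun i => IsScalarTower.toAlgHom K Γ(Y, V) Y.functionField (a₀ i)) :=
    ha₀.map' (f := IsScalarTower.toAlgHom K Γ(Y, V) Y.functionField)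
      (Y.germToFunctionField_injective V)
  obtain ⟨t, ht⟩ := hA1
  have hfd : FiniteDimensional Y.functionField X.functionField :=
    finiteDimensional_of_trdeg (K := K) _ ha t
  exact (Module.finrank_pos (R := Y.functionField) (M := X.functionField)).ne'

end Fermat.Agent.AV.GenFin
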