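/-
Fermat/Agent/AV/GenFin/General.lean  (helper43)

Programme AV (S26/S27), brick GENFIN, general form: a dominant `K`-morphism between integral
`K`-schemes smooth of the same relative dimension has nonzero degree
(`(A1)` = `GenFin.exists_finite_isSeparable_adjoin_ff` by helper81, `(A3)` =
`GenFin.degree_ne_zero_of_finite`).
-/
import Mathlib
import Fermat.Agent.AV.GenFin.Main
import Fermat.Agent.AV.GenFin.Etale

set_option autoImplicit false

universe u

open CategoryTheory CategoryTheory.Limits AlgebraicGeometry

namespace Fermat.Agent.AV.GenFin

variable {K : Type u} [Field K] {X Y : Scheme.{u}}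

/-- **GENFIN.**  A dominant morphism over `K` between integral `K`-schemes which are smooth of the
same relative dimension `d` induces a finite extension of function fields. -/
theorem degree_ne_zero (x : X ⟶ Spec (CommRingCat.of K)) (y : Y ⟶ Spec (CommRingCat.of K))
    (π : X ⟶ Y) (hπ : π ≫ y = x) (d : ℕ) [SmoothOfRelativeDimension d x]
    [SmoothOfRelativeDimension d y] [IsIntegral X] [IsIntegral Y] [IsDominant π] :
    NormD43.degree π ≠ 0 :=
  degree_ne_zero_of_finite x y π hπ d (by
    obtain ⟨t, h, _⟩ := exists_finite_isSeparable_adjoin_ff x d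
    exact ⟨t, h⟩)

end Fermat.Agent.AV.GenFin
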