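/-
Fermat/Agent/AV/GenFin/Prod.lean  (helper43)

Programme AV (S26/S27), brick GENFIN for products of curves, WITHOUT (A1)/(A2): the function field
of a product of `d` pointed curves is finite over a subfield generated by `d` elements (box
charts, brick UPB), hence a dominant `K`-morphism from it to an integral `K`-scheme smooth of
relative dimension `d` has finite nonzero degree.  In particular the degree of the sum map
`Curv33.sumMap G l : ∏ l ⟶ A` is nonzero when `l.length = dim A`.
-/
import Mathlib
import Fermat.Agent.AV.GenFin.Main
import Fermat.Agent.AV.Upb43.BoxFinite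
import Fermat.Agent.AV.Upb43.Main

set_option autoImplicit false

universe u

open CategoryTheory CategoryTheory.Limits AlgebraicGeometry NeronModelInfra GoodReductionJacobian

namespace Fermat.Agent.AV.GenFin

open Fermat.Agent.AV Fermat.Agent.AV.Upb43 Fermat.Agent.AV.Curv33

variable {K : Type u} [Field K] [IsAlgClosed K] {A : Scheme.{u}}
  {f : A ⟶ Spec (CommRingCat.of K)} {e : SchemeHomOver (𝟙 (Spec (CommRingCat.of K))) f}

/-- (A1) for products of curves: `K(∏ l)` is finite over a subfield generated by `l.length`
elements. -/
theorem exists_finiteDimensional_adjoin_prodObj (l : List (CurveTo f e))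
    [IsIntegral (prodObj l)] {d : ℕ} (hl : l.length = d) :
    letI := ffAlgebra (prodHom l)
    ∃ t : Fin d → (prodObj l).functionField,
      FiniteDimensional (IntermediateField.adjoin K (Set.range t)) (prodObj l).functionField := by
  letI := ffAlgebra (prodHom l)
  obtain ⟨_, σ, _, hcard, ⟨gb⟩⟩ := exists_geoBox_prodObj l
  exact gb.bx.exists_finiteDimensional_adjoin (hcard.trans hl)

/-- **GENFIN for products of curves.**  A dominant `K`-morphism from a product of `d` pointed
curves to an integral `K`-scheme smooth of relative dimension `d` has nonzero degree. -/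
theorem degree_ne_zero_prodObj (l : List (CurveTo f e)) [IsIntegral (prodObj l)]
    {Y : Scheme.{u}} [IsIntegral Y] (y : Y ⟶ Spec (CommRingCat.of K)) (π : prodObj l ⟶ Y)
    (hπ : π ≫ y = prodHom l) {d : ℕ} (hl : l.length = d) [SmoothOfRelativeDimension d y]
    [IsDominant π] : NormD43.degree π ≠ 0 :=
  degree_ne_zero_of_finite (prodHom l) y π hπ d (exists_finiteDimensional_adjoin_prodObj l hl)

/-- The degree of the sum map of `g = dim A` pointed curves is nonzero. -/
theorem degree_sumMap_ne_zero (G : RelativeGroupLaw K f)
    (l : List (CurveTo f (G.one (𝟙 (Spec (CommRingCat.of K))))))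
    [IsIntegral (prodObj l)] [IsIntegral A] {g : ℕ} (hl : l.length = g)
    [SmoothOfRelativeDimension g f] [IsDominant (sumMap G l)] :
    NormD43.degree (sumMap G l) ≠ 0 :=
  degree_ne_zero_prodObj l f (sumMap G l) (sumMap_f G l) hl

end Fermat.Agent.AV.GenFin
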