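/-
Programme AV (S26/S27), brick GENFIN, part (A2) (helper31).

The product over `Spec K` of a list `l` of pointed smooth proper curves (`Curv33.prodHom l`) is
smooth of relative dimension `l.length` over `K`.
-/
import Mathlib
import Fermat.Agent.AV.Curv33.Iface

set_option autoImplicit false

noncomputable section

universe u

open CategoryTheory CategoryTheory.Limits AlgebraicGeometry NeronModelInfra GoodReductionJacobian

namespace Fermat.Agent.AV.GenFin

open Fermat.Agent.AV.Curv33

variable {K : Type u} [Field K] {A : Scheme.{u}} {f : A ⟶ Spec (CommRingCat.of K)}
  {e : SchemeHomOver (𝟙 (Spec (CommRingCat.of K))) f}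

/-- Base change of a morphism smooth of relative dimension `n` (first projection form). -/
theorem smoothOfRelativeDimension_pullback_fst {X Y S : Scheme.{u}} (a : X ⟶ S) (b : Y ⟶ S)
    (n : ℕ) [hb : SmoothOfRelativeDimension n b] :
    SmoothOfRelativeDimension n (pullback.fst a b) :=
  (smoothOfRelativeDimension_isStableUnderBaseChange.{u} n).of_isPullback
    (IsPullback.of_hasPullback a b).flip hb

/-- Base change of a morphism smooth of relative dimension `n` (second projection form). -/
theorem smoothOfRelativeDimension_pullback_snd {X Y S : Scheme.{u}} (a : X ⟶ S) (b : Y ⟶ S)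
    (n : ℕ) [ha : SmoothOfRelativeDimension n a] :
    SmoothOfRelativeDimension n (pullback.snd a b) :=
  (smoothOfRelativeDimension_isStableUnderBaseChange.{u} n).of_isPullback
    (IsPullback.of_hasPullback a b) ha

/-- **(A2)** The product of a list `l` of smooth curves is smooth of relative dimension
`l.length` over `K`. -/
theorem smoothOfRelativeDimension_prodHom (l : List (CurveTo f e)) :
    SmoothOfRelativeDimension l.length (prodHom l) := by
  induction l with
  | nil =>
    show SmoothOfRelativeDimension 0 (𝟙 (Spec (CommRingCat.of K)))
    infer_instance
  | cons X l ih =>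
    show SmoothOfRelativeDimension (l.length + 1) (pullback.fst X.c (prodHom l) ≫ X.c)
    have := ih
    have := smoothOfRelativeDimension_pullback_fst X.c (prodHom l) l.length
    infer_instance

/-- The same with the length given separately. -/
theorem smoothOfRelativeDimension_prodHom_of_length (l : List (CurveTo f e)) {g : ℕ}
    (hl : l.length = g) : SmoothOfRelativeDimension g (prodHom l) :=
  hl ▸ smoothOfRelativeDimension_prodHom l

end Fermat.Agent.AV.GenFin
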